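/-
S26, block CURVES (architect helper26): the EXPORT of the block.   FROZEN INTERFACE.

`CoordCurves 𝔸 g` : `g` pointed smooth proper integral curves `ι i : Γ i ⟶ A` through the origin
together with local coordinates `t j` (sections of `𝒪_A` over an open neighbourhood `U` of the
origin `o`) such that
* the germs of the `t j` generate the maximal ideal of `𝒪_{A,o}`;
* `(ι i)^* (t j) = 0` for `j ≠ i`;
* the germ of `(ι i)^* (t i)` generates the maximal ideal of `𝒪_{Γ i, x i}`.
(So the cotangent functionals of the `ι i` form the dual basis of the `d t j`.)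
-/
import Fermat.Agent.S26.System

set_option autoImplicit false

universe u

open CategoryTheory CategoryTheory.Limits AlgebraicGeometry NeronModelInfra GoodReductionJacobian

namespace Fermat.Agent.S26

variable {K : Type u} [Field K]

/-- Coordinate curves through the origin. -/
structure CoordCurves (𝔸 : AbVar K) (g : ℕ) where
  C : Fin g → Curve 𝔸
  U : 𝔸.A.Opens
  o_mem : 𝔸.o ∈ U
  t : Fin g → Γ(𝔸.A, U)
  span_t : Ideal.span (Set.range fun j => 𝔸.A.presheaf.germ U 𝔸.o o_mem (t j)) =
    IsLocalRing.maximalIdeal (𝔸.A.presheaf.stalk 𝔸.o)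
  x_mem : ∀ i, (C i).x₀ ∈ (C i).ι.hom ⁻¹ᵁ U
  app_ne : ∀ i j, j ≠ i → (C i).ι.hom.app U (t j) = 0
  app_self : ∀ i, Ideal.span {(C i).Γ.presheaf.germ ((C i).ι.hom ⁻¹ᵁ U) (C i).x₀ (x_mem i)
      ((C i).ι.hom.app U (t i))} =
    IsLocalRing.maximalIdeal ((C i).Γ.presheaf.stalk (C i).x₀)

/-- The interface of helper86 (`S26/System.lean`). -/
def CoordCurves.toSystem {𝔸 : AbVar K} {g : ℕ} (S : CoordCurves 𝔸 g) : CurveSystem 𝔸 g where
  C := S.C
  U := S.U
  hU := S.o_mem
  t := S.t
  span_t := S.span_t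
  hx := S.x_mem
  off := fun i j h => by rw [S.app_ne i j h, map_zero]
  diag := S.app_self

/-- **Export of block CURVES.** -/
def CoordCurvesNode (K : Type u) [Field K] : Prop :=
  ∀ (𝔸 : AbVar K) (g : ℕ) [SmoothOfRelativeDimension g 𝔸.f], Nonempty (CoordCurves 𝔸 g)

end Fermat.Agent.S26
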