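/-
S26, block CURVES (architect helper26): shared DEFINITIONS of the block.   FROZEN INTERFACE.

`A` is a `K`-scheme (`f : A ⟶ Spec K`), `η : A` a point.
* `Res f η`            the residue field `κ(η)` as a `K`-algebra (type synonym remembering `f`)
* `evAlg f η W h`      evaluation `Γ(A, W) → κ(η)` as a `K`-algebra homomorphism (`η ∈ W`)
* `IsCurvePoint f η`   `κ(η)` is a separably generated function field of one variable over `K`
* `Nor η`, `norι η`    the relative normalization of `A` in `Spec κ(η)` and its (integral) map to `A`
* `norc f η`           its structure map to `Spec K`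
* `RW f η W h`         the integral closure of the image of `Γ(A, W)` in `κ(η)`
-/
import Fermat.Agent.S26.Curves.Spec
import Fermat.Agent.S25.Geom.Affine

set_option autoImplicit false

universe u

open CategoryTheory CategoryTheory.Limits AlgebraicGeometry IntermediateField

namespace Fermat.Agent.S26.Curves

open Fermat.Agent.S25.Geom

variable {K : Type u} [Field K] {A : Scheme.{u}} (f : A ⟶ SK K) (η : A)

/-- The residue field at `η`, remembering the structure morphism (so that it is a `K`-algebra). -/
def Res (_f : A ⟶ SK K) (η : A) : Type u := A.residueField η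

noncomputable instance : Field (Res f η) := inferInstanceAs (Field (A.residueField η))

/-- Constants in the residue field. -/
noncomputable def kRes : K →+* Res f η := (A.residue η).hom.comp (kStalk f η)

noncomputable instance : Algebra K (Res f η) := (kRes f η).toAlgebra

theorem evaluation_kΓ (W : A.Opens) (h : η ∈ W) (a : K) :
    (A.evaluation W η h).hom (kΓ f W a) = kRes f η a := by
  have h1 : kStalk f η a = A.presheaf.germ W η h (kΓ f W a) := by
    rw [← res_kΓ f (le_top : W ≤ ⊤) a, TopCat.Presheaf.germ_res_apply]
    rfl
  show (A.residue η).hom (A.presheaf.germ W η h (kΓ f W a)) = (A.residue η).hom (kStalk f η a)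
  rw [h1]

/-- Evaluation of sections at `η`, as a `K`-algebra homomorphism. -/
noncomputable def evAlg (W : A.Opens) (h : η ∈ W) : Sec f W →ₐ[K] Res f η :=
  { (A.evaluation W η h).hom with commutes' := evaluation_kΓ f η W h }

theorem evAlg_apply (W : A.Opens) (h : η ∈ W) (s : Sec f W) :
    evAlg f η W h s = (A.evaluation W η h).hom s := rfl

/-- `κ(η)` is a function field of one variable over `K` with a separating element. -/
def IsCurvePoint : Prop :=
  ∃ t : Res f η, Transcendental K t ∧ FiniteDimensional K⟮t⟯ (Res f η) ∧
    Algebra.IsSeparable K⟮t⟯ (Res f η)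

/-- The integral closure in `κ(η)` of the image of `Γ(A, W)`. -/
noncomputable abbrev RW (W : A.Opens) (h : η ∈ W) : Subalgebra (evAlg f η W h).range (Res f η) :=
  integralClosure (evAlg f η W h).range (Res f η)

/-- `Γ(A, W) → RW`. -/
noncomputable def toRW (W : A.Opens) (h : η ∈ W) : Sec f W →ₐ[K] RW f η W h :=
  (IsScalarTower.toAlgHom K (evAlg f η W h).range (RW f η W h)).comp (evAlg f η W h).rangeRestrict

theorem coe_toRW (W : A.Opens) (h : η ∈ W) (s : Sec f W) :
    ((toRW f η W h s : RW f η W h) : Res f η) = evAlg f η W h s := rfl

variable [QuasiSeparatedSpace A]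

instance : QuasiCompact (A.fromSpecResidueField η) := by
  infer_instance

/-- The relative normalization of `A` in `Spec κ(η)`. -/
noncomputable def Nor : Scheme.{u} := (A.fromSpecResidueField η).normalization

/-- The integral morphism `Nor η ⟶ A`. -/
noncomputable def norι : Nor η ⟶ A := (A.fromSpecResidueField η).fromNormalization

/-- The structure morphism of `Nor η`. -/
noncomputable def norc : Nor η ⟶ SK K := norι η ≫ f

instance : IsIntegralHom (norι η) :=
  inferInstanceAs (IsIntegralHom (A.fromSpecResidueField η).fromNormalization)

instance : IsIntegral (Nor η) :=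
  inferInstanceAs (IsIntegral (A.fromSpecResidueField η).normalization)

end Fermat.Agent.S26.Curves
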