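/-
S26, block CURVES (architect helper26): ASSEMBLY of the block: `coordCurvesNode`.
-/
import Fermat.Agent.S26.Curves.Sch.EtaleChart
import Fermat.Agent.S26.Curves.Sch.Finite
import Fermat.Agent.S26.Curves.Sch.Smooth
import Fermat.Agent.S26.Curves.Sch.KPoint
import Fermat.Agent.S26.Curves.Sch.GeomInt
import Fermat.Agent.S26.Curves.Alg.Coord.Prime
import Fermat.Agent.S26.Curves.Alg.Coord.Sep
import Fermat.Agent.S26.Curves.Alg.Pt

set_option autoImplicit false

universe u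

open CategoryTheory CategoryTheory.Limits AlgebraicGeometry IntermediateField MvPolynomial

namespace Fermat.Agent.S26.Curves

open Fermat.Agent.S25.Geom

variable {K : Type u} [Field K] [IsAlgClosed K]

theorem quasiSeparatedSpace_abVar (𝔸 : AbVar K) : QuasiSeparatedSpace 𝔸.A :=
  quasiSeparatedSpace_of_quasiSeparated 𝔸.f

/-- One coordinate curve. -/
theorem exists_coordCurve (𝔸 : AbVar K) (g : ℕ)
    (E : EtaleChart 𝔸.f (1 : 𝔸.KPt).hom (1 : 𝔸.KPt).hom_f g) (i : Fin g) :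
    ∃ (C : Curve 𝔸) (x_mem : C.x₀ ∈ C.ι.hom ⁻¹ᵁ E.U),
      (∀ j, j ≠ i → C.ι.hom.app E.U (E.φ (X j)) = 0) ∧
      Ideal.span {C.Γ.presheaf.germ (C.ι.hom ⁻¹ᵁ E.U) C.x₀ x_mem
          (C.ι.hom.app E.U (E.φ (X i)))} =
        IsLocalRing.maximalIdeal (C.Γ.presheaf.stalk C.x₀) := by
  classical
  haveI : QuasiSeparatedSpace 𝔸.A := quasiSeparatedSpace_abVar 𝔸
  set e₀ := evalAlg (1 : 𝔸.KPt).hom_f E.U E.o_mem with he₀
  obtain ⟨P, hP, hPe, hPj, hPi⟩ := coord_prime E.φ E.etale e₀ E.zero i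
  obtain ⟨η, hηU, hη⟩ := exists_point_of_prime E.affine P hP
  set ψ := evAlg 𝔸.f η E.U hηU with hψdef
  have hψ : ∀ s : Sec 𝔸.f E.U, ψ s = 0 ↔ s ∈ P := by
    intro s
    exact (Scheme.evaluation_eq_zero_iff_notMem_basicOpen 𝔸.A η hηU s).trans (hη s).symm
  have hfrac := evAlg_frac 𝔸.f η E.affine hηU
  have hker : ∀ x, ψ x = 0 → e₀ x = 0 := fun x hx => hPe x ((hψ x).1 hx)
  have hj : ∀ j, j ≠ i → ψ (E.φ (X j)) = 0 := fun j hj => (hψ _).2 (hPj j hj)
  have hi : ψ (E.φ (X i)) ≠ 0 := fun h => hPi ((hψ _).1 h)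
  have hcp : IsCurvePoint 𝔸.f η := ⟨_, coord_sep E.φ E.etale e₀ E.zero i ψ hker hj hi hfrac⟩
  haveI := sec_finiteType 𝔸.f E.affine
  have hloc : ∀ x, e₀ x = 0 → ∃ s y, e₀ s ≠ 0 ∧ ψ (s * x) = ψ (y * E.φ (X i)) := by
    intro x hx
    obtain ⟨s, hs, hsx⟩ := coord_span E.φ E.etale e₀ E.zero x hx
    obtain ⟨c, hc⟩ := (Ideal.mem_span_range_iff_exists_fun).1 hsx
    refine ⟨s, c i, hs, ?_⟩
    rw [← hc, map_sum, Finset.sum_eq_single i]
    · intro j _ hji
      rw [map_mul, hj j hji, mul_zero]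
    · intro h
      exact absurd (Finset.mem_univ i) h
  obtain ⟨ε, hε, hεu⟩ := pt_main ψ hfrac e₀ hker (E.φ (X i)) hi (E.zero i) hloc
  set ce := chartEquiv 𝔸.f η E.affine hηU with hce
  have hceapp : ∀ s : Γ(𝔸.A, E.U), ε (ce ((norι η).app E.U s)) = e₀ s := by
    intro s
    rw [hce, chartEquiv_app]
    exact hε s
  let ρ : Γ(Nor η, norι η ⁻¹ᵁ E.U) →+* K := (ε : RW 𝔸.f η E.U hηU →+* K).comp (ce : _ →+* _)
  have hρ : ∀ s, ρ s = ε (ce s) := fun _ => rfl
  have hV := isAffineOpen_preimage η E.affine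
  obtain ⟨x, hxc, hxV, hxρ⟩ := exists_kpoint (norc 𝔸.f η) hV ρ (fun a => by
    rw [hρ, hce, chartEquiv_kΓ, AlgHom.commutes]
    rfl)
  haveI := isProper_norc 𝔸.f η hcp
  haveI := smooth_norc 𝔸.f η hcp
  haveI := geometricallyIntegral_of_isAlgClosed (norc 𝔸.f η)
  have hxo : x ≫ norι η = (1 : 𝔸.KPt).hom := by
    have hx' : ⊤ ≤ (x ≫ norι η) ⁻¹ᵁ E.U := hxV
    refine kpoint_ext E.affine _ _ hx' E.o_mem ?_
    ext s
    rw [evalΓ_comp (norι η) x E.U hxV hx' s, hxρ, hρ, hceapp]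
    rfl
  let C : Curve 𝔸 :=
    { Γ := Nor η
      c := norc 𝔸.f η
      ε := ⟨x, hxc⟩
      ι := ⟨norι η, rfl⟩
      ι_ε := AbVar.Pt.ext hxo }
  have hxm : pt x ∈ norι η ⁻¹ᵁ E.U := (pt_mem_iff x _).1 hxV
  refine ⟨C, hxm, ?_, ?_⟩
  · intro j hji
    have h1 : ce ((norι η).app E.U (E.φ (X j))) = 0 := by
      rw [hce, chartEquiv_app]
      apply Subtype.ext
      rw [coe_toRW]
      exact hj j hji
    exact ce.injective (h1.trans (map_zero ce).symm)
  · have key := span_germ_eq_maximalIdeal hV x hxV hxm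
      (fun _ : Unit => (norι η).app E.U (E.φ (X i)))
      (fun _ => by rw [hxρ, hρ, hceapp]; exact E.zero i)
      (fun s hs => by
        rw [hxρ, hρ] at hs
        obtain ⟨s', y, hs', hy⟩ := hεu (ce s) hs
        refine ⟨ce.symm s', ?_, ?_⟩
        · rw [hxρ, hρ, RingEquiv.apply_symm_apply]
          exact hs'
        · have h1 : ce.symm s' * s = ce.symm y * (norι η).app E.U (E.φ (X i)) := by
            apply ce.injective
            rw [map_mul, map_mul, RingEquiv.apply_symm_apply, RingEquiv.apply_symm_apply, hy, hce,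
              chartEquiv_app]
            rfl
          rw [h1]
          exact Ideal.mul_mem_left _ _ (Ideal.subset_span ⟨(), rfl⟩))
    rw [Set.range_const] at key
    exact key

/-- **Export of block CURVES.** -/
theorem coordCurvesNode : CoordCurvesNode K := by
  intro 𝔸 g _
  obtain ⟨E⟩ := exists_etaleChart 𝔸.f g (1 : 𝔸.KPt).hom (1 : 𝔸.KPt).hom_f
  choose C x_mem hne hself using exists_coordCurve 𝔸 g E
  have ho : pt (1 : 𝔸.KPt).hom ∈ E.U := (pt_mem_iff _ _).1 E.o_mem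
  exact ⟨{
    C := C
    U := E.U
    o_mem := ho
    t := fun j => E.φ (X j)
    span_t := span_germ_eq_maximalIdeal E.affine (1 : 𝔸.KPt).hom E.o_mem ho
      (fun j => E.φ (X j)) E.zero
      (fun s hs => coord_span E.φ E.etale (evalAlg (1 : 𝔸.KPt).hom_f E.U E.o_mem) E.zero s hs)
    x_mem := x_mem
    app_ne := hne
    app_self := hself }⟩

/-- **Export of block CURVES**, in the form of `S26/System.lean`. -/
theorem systemNode (𝔸 : AbVar K) (g : ℕ) [SmoothOfRelativeDimension g 𝔸.f] : SystemNode 𝔸 g :=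
  (coordCurvesNode 𝔸 g).map CoordCurves.toSystem

end Fermat.Agent.S26.Curves
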